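/-
S48 (Deligne–Serre) / Γ₁(M)-port, node P0 (helper45): the function field of `X₁(M)` in the
model with RATIONAL `q`-expansions (report 208/209, helper22).

Model: `E = 𝔾ₘ / q^{Mℤ}` (Tate curve with parameter `q^M`), `P = q` (a point of exact order `M`).
Every function of `(E, P)` defined over `ℚ` has its `q`-expansion in `ℚ((q))`:
`j(E) = j(q^M)`, `j(E/⟨P⟩) = j(q)`, and the WEBER FUNCTION of the multiple `aP = q^a`

  `w_M^{(a)}(q) = (E₄E₆/Δ)(q^M) · (1/12 + X(q^a ; q^M))`,
  `X(u ; Q) = ∑_{n ∈ ℤ} Q^n u / (1 - Q^n u)² - 2 ∑_{n ≥ 1} σ₁(n) Q^n`   (`x`-coordinate on the Tate curve).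

For `u = q^a`, `Q = q^M` one finds the closed form
  `X(q^a ; q^M) = ∑_{k ≥ 1} ( ∑_{e ∣ k} (k/e) · ([e ≡ a] + [e ≡ -a] - 2 [e ≡ 0]  mod M) ) q^k`,
so `12 · w_M^{(a)}` has INTEGER coefficients and leading term `q^{-M}`.

* `eisenstein6`, `weberNum`, `weberFactorC R` (`= (E₄E₆/Δ)(q)` over any commutative ring `R`);
* `tateCoeff M a k`, `tateX12 M a : ℤ⟦q⟧` (`= 1 + 12 X(q^a ; q^M)`);
* `weber12C R M a : LaurentSeries R` (`= 12 · w_M^{(a)}`), `coeffMap_weber12C`, `weber12C_neg`,
  `coeff_weber12C_mem_range`, `coeff_weber12C_neg_level`, `coeff_weber12C_of_lt`, `weber12C_ne_zero`;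
* `weberQ M a : LaurentSeries ℚ` (`= w_M^{(a)}`);
* `F1C K M : IntermediateField K (LaurentSeries K)` `= K( j(q^d) (d ∣ M), 12 w_M^{(a)} (a ≠ 0) )`,
  `fullC_le_F1C`, `weber12C_mem_F1C`, `coeffMap_mem_F1C` (base change of constants),
  `F1 M := F1C ℚ M`, `laurentBaseChange_F1 : laurentBaseChange L (F1 M) = F1C L M`.
-/
import Fermat.Prelude.Def_ModularCurve_X0ModL

set_option autoImplicit false

noncomputable section

namespace Fermat.Agent.DS.P0

open HahnSeries ModularCurve

/-! ### `E₆` and the weight `-2` factor `E₄E₆/Δ` -/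

/-- the Eisenstein series `E₆ = 1 - 504 ∑ σ₅(n) qⁿ` -/
def eisenstein6 : PowerSeries ℤ :=
  PowerSeries.mk fun n => if n = 0 then 1 else -504 * ∑ d ∈ n.divisors, (d : ℤ) ^ 5

@[simp]
theorem constantCoeff_eisenstein6 : PowerSeries.constantCoeff eisenstein6 = 1 := by
  rw [← PowerSeries.coeff_zero_eq_constantCoeff]
  simp [eisenstein6]

/-- `q · (E₄E₆/Δ)(q) ∈ 1 + qℤ⟦q⟧` -/
def weberNum : PowerSeries ℤ := eisenstein4 * eisenstein6 * dedekindEtaUnitInv

@[simp]
theorem constantCoeff_weberNum : PowerSeries.constantCoeff weberNum = 1 := by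
  rw [weberNum, map_mul, map_mul, constantCoeff_eisenstein4, constantCoeff_eisenstein6,
    constantCoeff_dedekindEtaUnitInv]
  norm_num

section Ring

variable (R : Type*) [CommRing R]

/-- `(E₄E₆/Δ)(q) = q⁻¹ + …` over an arbitrary commutative ring -/
def weberFactorC : LaurentSeries R :=
  HahnSeries.single (-1 : ℤ) 1 *
    HahnSeries.ofPowerSeries ℤ R (weberNum.map (Int.castRingHom R))

variable {R} in
theorem coeffMap_weberFactorC {S : Type*} [CommRing S] (f : R →+* S) :
    coeffMap f (weberFactorC R) = weberFactorC S := by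
  rw [weberFactorC, map_mul, coeffMap_single, map_one, coeffMap_ofPowerSeries,
    ← RingHom.comp_apply (PowerSeries.map f) (PowerSeries.map (Int.castRingHom R)),
    ← PowerSeries.map_comp, RingHom.ext_int (f.comp (Int.castRingHom R)) (Int.castRingHom S)]
  rfl

end Ring

/-! ### The `x`-coordinate of `q^a` on `𝔾ₘ/q^{Mℤ}` -/

/-- the coefficient of `q^k` in `X(q^a ; q^M)` -/
def tateCoeff (M : ℕ) (a : ZMod M) (k : ℕ) : ℤ :=
  ∑ e ∈ k.divisors, ((k / e : ℕ) : ℤ) *
    ((if ((e : ℕ) : ZMod M) = a then 1 else 0) + (if ((e : ℕ) : ZMod M) = -a then 1 else 0)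
      - 2 * (if ((e : ℕ) : ZMod M) = 0 then 1 else 0))

@[simp]
theorem tateCoeff_zero (M : ℕ) (a : ZMod M) : tateCoeff M a 0 = 0 := by
  simp [tateCoeff]

theorem tateCoeff_neg (M : ℕ) (a : ZMod M) (k : ℕ) : tateCoeff M (-a) k = tateCoeff M a k := by
  unfold tateCoeff
  refine Finset.sum_congr rfl fun e _ => ?_
  rw [neg_neg]
  ring

/-- `1 + 12 · X(q^a ; q^M) ∈ ℤ⟦q⟧` -/
def tateX12 (M : ℕ) (a : ZMod M) : PowerSeries ℤ :=
  PowerSeries.mk fun k => if k = 0 then 1 else 12 * tateCoeff M a k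

@[simp]
theorem constantCoeff_tateX12 (M : ℕ) (a : ZMod M) :
    PowerSeries.constantCoeff (tateX12 M a) = 1 := by
  rw [← PowerSeries.coeff_zero_eq_constantCoeff]
  simp [tateX12]

theorem coeff_tateX12_succ (M : ℕ) (a : ZMod M) (k : ℕ) :
    PowerSeries.coeff (k + 1) (tateX12 M a) = 12 * tateCoeff M a (k + 1) := by
  simp [tateX12]

theorem tateX12_neg (M : ℕ) (a : ZMod M) : tateX12 M (-a) = tateX12 M a := by
  unfold tateX12
  congr 1
  funext k
  rw [tateCoeff_neg]

/-! ### The Weber series -/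

section Weber

variable (R : Type*) [CommRing R] (M : ℕ) [NeZero M]

/-- `12 · w_M^{(a)}(q) = (E₄E₆/Δ)(q^M) · (1 + 12 X(q^a ; q^M))`: twelve times the Weber function of
the point `q^a` of the Tate curve `𝔾ₘ/q^{Mℤ}`; integer coefficients, leading term `q^{-M}`. -/
def weber12C (a : ZMod M) : LaurentSeries R :=
  qExpand R M (weberFactorC R) *
    HahnSeries.ofPowerSeries ℤ R ((tateX12 M a).map (Int.castRingHom R))

variable {R} in
theorem coeffMap_weber12C {S : Type*} [CommRing S] (f : R →+* S) (a : ZMod M) :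
    coeffMap f (weber12C R M a) = weber12C S M a := by
  rw [weber12C, map_mul, coeffMap_qExpand, coeffMap_weberFactorC, coeffMap_ofPowerSeries,
    ← RingHom.comp_apply (PowerSeries.map f) (PowerSeries.map (Int.castRingHom R)),
    ← PowerSeries.map_comp, RingHom.ext_int (f.comp (Int.castRingHom R)) (Int.castRingHom S)]
  rfl

theorem weber12C_neg (a : ZMod M) : weber12C R M (-a) = weber12C R M a := by
  rw [weber12C, weber12C, tateX12_neg]

theorem weber12C_eq_coeffMap_int (a : ZMod M) :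
    weber12C R M a = coeffMap (Int.castRingHom R) (weber12C ℤ M a) :=
  (coeffMap_weber12C M (Int.castRingHom R) a).symm

theorem coeff_weber12C_eq_intCast (a : ZMod M) (k : ℤ) :
    (weber12C R M a).coeff k = (((weber12C ℤ M a).coeff k : ℤ) : R) := by
  rw [weber12C_eq_coeffMap_int]
  rfl

/-- the coefficients of `12 w` are integers -/
theorem coeff_weber12C_mem_range (a : ZMod M) (k : ℤ) :
    (weber12C R M a).coeff k ∈ (Int.castRingHom R).range := by
  rw [coeff_weber12C_eq_intCast]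
  exact ⟨_, rfl⟩

/-! #### leading term -/

variable {R} in
/-- `f(q^e)` of a power series is the expanded power series (cf. `S28/CuspExp`) -/
theorem qExpand_ofPowerSeries_expand (e : ℕ) [NeZero e] (p : PowerSeries R) :
    qExpand R e (HahnSeries.ofPowerSeries ℤ R p) =
      HahnSeries.ofPowerSeries ℤ R (PowerSeries.expand e (NeZero.ne e) p) := by
  ext k
  by_cases hk : (e : ℤ) ∣ k
  · obtain ⟨m, rfl⟩ := hk
    rw [qExpand_coeff_mul]
    rcases le_or_gt 0 m with hm | hm
    · lift m to ℕ using hm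
      rw [HahnSeries.ofPowerSeries_apply_coeff,
        show (e : ℤ) * (m : ℤ) = ((e * m : ℕ) : ℤ) by push_cast; ring,
        HahnSeries.ofPowerSeries_apply_coeff, PowerSeries.coeff_expand_mul]
    · have hneg : (e : ℤ) * m < 0 :=
        mul_neg_of_pos_of_neg (by exact_mod_cast Nat.pos_of_ne_zero (NeZero.ne e)) hm
      rw [ofPowerSeries_coeff_of_neg _ hm, ofPowerSeries_coeff_of_neg _ hneg]
  · rw [qExpand_coeff_of_not_dvd e _ hk]
    rcases le_or_gt 0 k with hk0 | hk0
    · lift k to ℕ using hk0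
      rw [HahnSeries.ofPowerSeries_apply_coeff, PowerSeries.coeff_expand_of_not_dvd]
      exact fun h => hk (by exact_mod_cast h)
    · rw [ofPowerSeries_coeff_of_neg _ hk0]

/-- the power series `q^M · 12 w_M^{(a)}(q) ∈ 1 + q R⟦q⟧` -/
def weberPS (a : ZMod M) : PowerSeries R :=
  PowerSeries.expand M (NeZero.ne M) (weberNum.map (Int.castRingHom R)) *
    (tateX12 M a).map (Int.castRingHom R)

@[simp]
theorem constantCoeff_weberPS (a : ZMod M) : PowerSeries.constantCoeff (weberPS R M a) = 1 := by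
  rw [weberPS, map_mul, PowerSeries.constantCoeff_expand]
  simp only [← PowerSeries.coeff_zero_eq_constantCoeff, PowerSeries.coeff_map]
  simp only [PowerSeries.coeff_zero_eq_constantCoeff, constantCoeff_weberNum,
    constantCoeff_tateX12]
  simp

/-- `12 w = q^{-M} · (1 + …)` -/
theorem weber12C_eq_single_mul (a : ZMod M) :
    weber12C R M a =
      HahnSeries.single (-(M : ℤ)) 1 * HahnSeries.ofPowerSeries ℤ R (weberPS R M a) := by
  rw [weber12C, weberFactorC, map_mul, qExpand_single, qExpand_ofPowerSeries_expand, weberPS,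
    map_mul, mul_assoc, mul_neg_one]

theorem coeff_weber12C (a : ZMod M) (k : ℤ) :
    (weber12C R M a).coeff k =
      (HahnSeries.ofPowerSeries ℤ R (weberPS R M a)).coeff (k + M) := by
  rw [weber12C_eq_single_mul, HahnSeries.coeff_single_mul, one_mul, sub_neg_eq_add]

/-- the leading coefficient of `12 w_M^{(a)}` is `1`, at `q^{-M}` -/
theorem coeff_weber12C_neg_level (a : ZMod M) : (weber12C R M a).coeff (-(M : ℤ)) = 1 := by
  rw [coeff_weber12C, neg_add_cancel]
  have h := HahnSeries.ofPowerSeries_apply_coeff (Γ := ℤ) (weberPS R M a) 0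
  rw [Nat.cast_zero] at h
  rw [h, PowerSeries.coeff_zero_eq_constantCoeff, constantCoeff_weberPS]

theorem coeff_weber12C_of_lt (a : ZMod M) {k : ℤ} (hk : k < -(M : ℤ)) :
    (weber12C R M a).coeff k = 0 := by
  rw [coeff_weber12C]
  exact ofPowerSeries_coeff_of_neg _ (by linarith)

theorem weber12C_ne_zero [Nontrivial R] (a : ZMod M) : weber12C R M a ≠ 0 := fun h => by
  have h1 := coeff_weber12C_neg_level R M a
  rw [h] at h1
  exact zero_ne_one h1

end Weber

/-- the Weber function `w_M^{(a)}(q) ∈ ℚ((q))` of the point `q^a` of `𝔾ₘ/q^{Mℤ}`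
(report 209: `weberQ M = weberQ M 1`) -/
def weberQ (M : ℕ) [NeZero M] (a : ZMod M) : LaurentSeries ℚ :=
  HahnSeries.C (12 : ℚ)⁻¹ * weber12C ℚ M a

theorem weber12C_rat (M : ℕ) [NeZero M] (a : ZMod M) :
    weber12C ℚ M a = HahnSeries.C (12 : ℚ) * weberQ M a := by
  rw [weberQ, ← mul_assoc, ← map_mul, mul_inv_cancel₀ (by norm_num), map_one, one_mul]

/-! ### The function field of `X₁(M)` -/

section Field

variable (K : Type*) [Field K] (M : ℕ) [NeZero M]

/-- the Weber generators `12 w_M^{(a)}`, `a ≠ 0` -/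
def weberExpansionsC : Set (LaurentSeries K) :=
  {x | ∃ a : ZMod M, a ≠ 0 ∧ x = weber12C K M a}

theorem mem_weberExpansionsC {a : ZMod M} (ha : a ≠ 0) :
    weber12C K M a ∈ weberExpansionsC K M :=
  ⟨a, ha, rfl⟩

/-- **the function field of `X₁(M)` over `K`** inside `K((q))`:
`K( j(q^d) (d ∣ M), w_M^{(a)}(q) (a ∈ ℤ/M, a ≠ 0) )`. -/
def F1C : IntermediateField K (LaurentSeries K) :=
  IntermediateField.adjoin K (divisorExpansionsC K M ∪ weberExpansionsC K M)

/-- `K(X₀(M)) ⊆ K(X₁(M))` -/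
theorem fullC_le_F1C : modularFunctionFieldFullC K M ≤ F1C K M :=
  IntermediateField.adjoin.mono K _ _ Set.subset_union_left

theorem weber12C_mem_F1C {a : ZMod M} (ha : a ≠ 0) : weber12C K M a ∈ F1C K M :=
  IntermediateField.subset_adjoin K _ (Or.inr (mem_weberExpansionsC K M ha))

theorem jqModCd_mem_F1C {d : ℕ} [NeZero d] (hd : d ∣ M) :
    qExpand K d (jqModC K) ∈ F1C K M :=
  fullC_le_F1C K M (jqModCd_mem_full K M hd)

theorem jqModC_mem_F1C : jqModC K ∈ F1C K M :=
  fullC_le_F1C K M (jqModC_mem_full K M)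

theorem jqNModC_mem_F1C : jqNModC K M ∈ F1C K M :=
  jqModCd_mem_F1C K M dvd_rfl

/-- base change of the constants maps `K(X₁(M))` into `K'(X₁(M))` -/
theorem coeffMap_mem_F1C {K' : Type*} [Field K'] (ι : K →+* K') {x : LaurentSeries K}
    (hx : x ∈ F1C K M) : coeffMap ι x ∈ F1C K' M := by
  have key : (F1C K M).toSubfield ≤ (F1C K' M).toSubfield.comap (coeffMap ι) := by
    unfold F1C
    apply IntermediateField.adjoin_le_subfield
    · rintro _ ⟨c, rfl⟩
      rw [SetLike.mem_coe, Subfield.mem_comap, IntermediateField.mem_toSubfield,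
        algebraMap_laurentSeries_eq_single, coeffMap_single,
        ← algebraMap_laurentSeries_eq_single]
      exact IntermediateField.algebraMap_mem _ _
    · rintro _ (⟨d, hne, hd, rfl⟩ | ⟨a, ha, rfl⟩)
      · rw [SetLike.mem_coe, Subfield.mem_comap, IntermediateField.mem_toSubfield,
          coeffMap_qExpand, coeffMap_jqModC]
        exact IntermediateField.subset_adjoin K' _ (Or.inl (mem_divisorExpansionsC K' M hd))
      · rw [SetLike.mem_coe, Subfield.mem_comap, IntermediateField.mem_toSubfield,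
          coeffMap_weber12C]
        exact IntermediateField.subset_adjoin K' _ (Or.inr (mem_weberExpansionsC K' M ha))
  exact key hx

end Field

/-- the function field of `X₁(M)` over `ℚ` (report 209, node P0) -/
abbrev F1 (M : ℕ) [NeZero M] : IntermediateField ℚ (LaurentSeries ℚ) := F1C ℚ M

theorem weberQ_mem_F1 (M : ℕ) [NeZero M] {a : ZMod M} (ha : a ≠ 0) : weberQ M a ∈ F1 M := by
  rw [weberQ]
  refine mul_mem ?_ (weber12C_mem_F1C ℚ M ha)
  have : (HahnSeries.C (12 : ℚ)⁻¹ : LaurentSeries ℚ) = algebraMap ℚ (LaurentSeries ℚ) (12 : ℚ)⁻¹ := by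
    rw [algebraMap_laurentSeries_eq_single]; rfl
  rw [this]
  exact (F1 M).algebraMap_mem _

/-- `L ⊗ ℚ(X₁(M)) = L(X₁(M))` inside `L((q))` -/
theorem laurentBaseChange_F1 (L : Type*) [Field L] [Algebra ℚ L] (M : ℕ) [NeZero M] :
    laurentBaseChange L (F1 M) = F1C L M := by
  apply le_antisymm
  · unfold laurentBaseChange
    rw [IntermediateField.adjoin_le_iff]
    rintro _ ⟨x, hx, rfl⟩
    exact coeffMap_mem_F1C ℚ M (algebraMap ℚ L) hx
  · unfold F1C
    rw [IntermediateField.adjoin_le_iff]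
    rintro _ (⟨d, hne, hd, rfl⟩ | ⟨a, ha, rfl⟩)
    · have h := coeffEmb_mem_laurentBaseChange L (F₀ := F1 M) (jqModCd_mem_F1C ℚ M hd)
      rwa [coeffEmb, coeffMap_qExpand, coeffMap_jqModC] at h
    · have h := coeffEmb_mem_laurentBaseChange L (F₀ := F1 M) (weber12C_mem_F1C ℚ M ha)
      rwa [coeffEmb, coeffMap_weber12C] at h

end Fermat.Agent.DS.P0
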