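import Mathlib
import Fermat.Agent.DS.P0.Weber

/-!
# GATE-N / S48-P0-WEBER-DISTINCT: the Weber conjugates `w_M^{(a)}` are pairwise distinct

For `a : ZMod M` put `r(a) := min a.val (M - a.val)` (the distance from `a` to `0`).  Then for
`a ≠ 0` the coefficient `tateCoeff M a k` of `X(q^a ; q^M)` vanishes for `0 < k < r(a)` and equals
`1` (or `2` when `a = -a`) at `k = r(a)`; for `a = 0` all coefficients vanish.  Consequently

* `tateX12 M a = tateX12 M b ↔ a = b ∨ a = -b`,
* `weber12C R M a = weber12C R M b ↔ a = b ∨ a = -b` over every commutative ring `R` in which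
  `24 ≠ 0` (in particular in residue characteristic `ℓ ≥ 5`),
* `weberQ M a = weberQ M b ↔ a = b ∨ a = -b`.
-/

set_option autoImplicit false
set_option linter.unusedSectionVars false

noncomputable section

namespace Fermat.Agent.DS.P0.WeberDistinct

open HahnSeries Fermat.Agent.DS.P0

variable (M : ℕ) [NeZero M]

/-- the distance from `a : ZMod M` to `0` -/
def absRep (a : ZMod M) : ℕ := min a.val (M - a.val)

variable {M}

theorem val_pos_of_ne_zero {a : ZMod M} (ha : a ≠ 0) : 0 < a.val :=
  Nat.pos_of_ne_zero fun h => ha ((ZMod.val_eq_zero a).mp h)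

theorem absRep_pos {a : ZMod M} (ha : a ≠ 0) : 0 < absRep M a := by
  have h1 := val_pos_of_ne_zero ha
  have h2 := ZMod.val_lt a
  unfold absRep
  omega

theorem absRep_zero : absRep M (0 : ZMod M) = 0 := by
  unfold absRep
  rw [ZMod.val_zero]
  exact Nat.zero_min _

theorem two_mul_absRep_le (a : ZMod M) : 2 * absRep M a ≤ M := by
  have h2 := ZMod.val_lt a
  unfold absRep
  omega

theorem absRep_lt (a : ZMod M) : absRep M a < M := by
  have h2 := ZMod.val_lt a
  have := NeZero.pos M
  unfold absRep
  omega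

theorem natCast_eq_iff_of_lt {e : ℕ} (he : e < M) (a : ZMod M) :
    ((e : ℕ) : ZMod M) = a ↔ e = a.val := by
  constructor
  · intro h
    rw [← h, ZMod.val_natCast_of_lt he]
  · intro h
    rw [h, ZMod.natCast_zmod_val]

theorem neg_val_of_ne_zero {a : ZMod M} (ha : a ≠ 0) : (-a).val = M - a.val := by
  rw [ZMod.neg_val, if_neg ha]

theorem natCast_ne_zero_of_lt {e : ℕ} (he0 : 0 < e) (he : e < M) : ((e : ℕ) : ZMod M) ≠ 0 := by
  intro h
  rw [ZMod.natCast_eq_zero_iff] at h
  exact absurd (Nat.le_of_dvd he0 h) (not_le.mpr he)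

theorem absRep_neg (a : ZMod M) : absRep M (-a) = absRep M a := by
  by_cases ha : a = 0
  · rw [ha, neg_zero]
  · have h1 := val_pos_of_ne_zero ha
    have h2 := ZMod.val_lt a
    unfold absRep
    rw [neg_val_of_ne_zero ha]
    omega

theorem eq_or_eq_neg_of_absRep_eq {a b : ZMod M} (ha : a ≠ 0) (hb : b ≠ 0)
    (h : absRep M a = absRep M b) : a = b ∨ a = -b := by
  have ha1 := val_pos_of_ne_zero ha
  have ha2 := ZMod.val_lt a
  have hb1 := val_pos_of_ne_zero hb
  have hb2 := ZMod.val_lt b
  unfold absRep at h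
  have hcases : a.val = b.val ∨ a.val = M - b.val := by omega
  rcases hcases with h1 | h1
  · exact Or.inl (ZMod.val_injective M h1)
  · right
    apply ZMod.val_injective M
    rw [neg_val_of_ne_zero hb, h1]

/-- the `e`-th summand of `tateCoeff` in terms of `a.val` -/
theorem tateTerm_eq {a : ZMod M} (ha : a ≠ 0) {e : ℕ} (he0 : 0 < e) (he : e < M) :
    ((if ((e : ℕ) : ZMod M) = a then (1 : ℤ) else 0) + (if ((e : ℕ) : ZMod M) = -a then 1 else 0)
      - 2 * (if ((e : ℕ) : ZMod M) = 0 then 1 else 0)) =
    (if e = a.val then 1 else 0) + (if e = M - a.val then 1 else 0) := by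
  rw [if_neg (natCast_ne_zero_of_lt he0 he)]
  simp only [natCast_eq_iff_of_lt he, neg_val_of_ne_zero ha]
  ring

/-- `X(q^a ; q^M)` has no terms below `q^{r(a)}` -/
theorem tateCoeff_of_lt_absRep {a : ZMod M} (ha : a ≠ 0) {k : ℕ} (hk : k < absRep M a) :
    tateCoeff M a k = 0 := by
  unfold tateCoeff
  refine Finset.sum_eq_zero fun e he => ?_
  have hek : e ≤ k := Nat.divisor_le he
  have he0 : 0 < e := Nat.pos_of_mem_divisors he
  have hrM := absRep_lt a
  have hr1 : absRep M a ≤ a.val := Nat.min_le_left _ _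
  have hr2 : absRep M a ≤ M - a.val := Nat.min_le_right _ _
  rw [tateTerm_eq ha he0 (by omega), if_neg (by omega), if_neg (by omega)]
  simp

/-- the coefficient of `q^{r(a)}` in `X(q^a ; q^M)` is `1`, or `2` if `a = -a` -/
theorem tateCoeff_absRep {a : ZMod M} (ha : a ≠ 0) :
    tateCoeff M a (absRep M a) = if a = -a then 2 else 1 := by
  have hr0 := absRep_pos ha
  have hrM := absRep_lt a
  have ha1 := val_pos_of_ne_zero ha
  have ha2 := ZMod.val_lt a
  have hr1 : absRep M a ≤ a.val := Nat.min_le_left _ _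
  have hr2 : absRep M a ≤ M - a.val := Nat.min_le_right _ _
  unfold tateCoeff
  rw [Finset.sum_eq_single (absRep M a)]
  · rw [tateTerm_eq ha hr0 hrM, Nat.div_self hr0]
    by_cases hneg : a = -a
    · have hv : a.val = M - a.val := by
        conv_lhs => rw [hneg]
        exact neg_val_of_ne_zero ha
      have h1 : absRep M a = a.val := by unfold absRep; omega
      rw [if_pos hneg, if_pos h1, if_pos (by omega)]
      norm_num
    · have hv : a.val ≠ M - a.val := by
        intro h
        apply hneg
        apply ZMod.val_injective M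
        rw [neg_val_of_ne_zero ha]
        exact h
      rw [if_neg hneg]
      have hcases : absRep M a = a.val ∨ absRep M a = M - a.val := by unfold absRep; omega
      rcases hcases with h1 | h1
      · rw [if_pos h1, if_neg (by omega)]
        norm_num
      · rw [if_neg (by omega), if_pos h1]
        norm_num
  · intro e he hne
    have hek : e ≤ absRep M a := Nat.divisor_le he
    have he0 : 0 < e := Nat.pos_of_mem_divisors he
    have hlt : e < absRep M a := lt_of_le_of_ne hek hne
    rw [tateTerm_eq ha he0 (by omega), if_neg (by omega), if_neg (by omega)]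
    simp
  · intro h
    exact absurd (Nat.mem_divisors_self _ hr0.ne') h

theorem tateCoeff_absRep_pos {a : ZMod M} (ha : a ≠ 0) :
    tateCoeff M a (absRep M a) = 1 ∨ tateCoeff M a (absRep M a) = 2 := by
  rw [tateCoeff_absRep ha]
  by_cases h : a = -a
  · exact Or.inr (if_pos h)
  · exact Or.inl (if_neg h)

/-- for `a = 0` the series `X(q^a ; q^M)` vanishes -/
theorem tateCoeff_zero_left (k : ℕ) : tateCoeff M (0 : ZMod M) k = 0 := by
  unfold tateCoeff
  refine Finset.sum_eq_zero fun e _ => ?_
  rw [neg_zero]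
  by_cases h : ((e : ℕ) : ZMod M) = 0
  · rw [if_pos h]; ring
  · rw [if_neg h]; ring

/-! ### distinctness over a commutative ring in which `24 ≠ 0` -/

section Ring

variable (R : Type*) [CommRing R]

/-- the coefficient of `q^{r(a)}` of `1 + 12 X(q^a;q^M)` does not vanish in `R` -/
theorem coeff_map_tateX12_absRep_ne_zero (h24 : (24 : R) ≠ 0) {a : ZMod M} (ha : a ≠ 0) :
    PowerSeries.coeff (absRep M a) ((tateX12 M a).map (Int.castRingHom R)) ≠ 0 := by
  have hr0 := absRep_pos ha
  obtain ⟨k, hk⟩ : ∃ k, absRep M a = k + 1 := ⟨absRep M a - 1, by omega⟩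
  rw [PowerSeries.coeff_map, hk, coeff_tateX12_succ, ← hk]
  have h12 : (12 : R) ≠ 0 := by
    intro h
    apply h24
    have : (24 : R) = 2 * 12 := by norm_num
    rw [this, h, mul_zero]
  rcases tateCoeff_absRep_pos ha with h | h
  · rw [h]
    simpa using h12
  · rw [h]
    have : ((Int.castRingHom R) (12 * 2) : R) = 24 := by
      simp only [eq_intCast]
      push_cast
      norm_num
    rw [this]
    exact h24

theorem coeff_map_tateX12_of_lt {a : ZMod M} (ha : a ≠ 0) {k : ℕ} (hk0 : 0 < k)
    (hk : k < absRep M a) :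
    PowerSeries.coeff k ((tateX12 M a).map (Int.castRingHom R)) = 0 := by
  obtain ⟨k', rfl⟩ : ∃ k', k = k' + 1 := ⟨k - 1, by omega⟩
  rw [PowerSeries.coeff_map, coeff_tateX12_succ, tateCoeff_of_lt_absRep ha hk]
  simp

theorem coeff_map_tateX12_zero_left {k : ℕ} (hk0 : 0 < k) :
    PowerSeries.coeff k ((tateX12 M (0 : ZMod M)).map (Int.castRingHom R)) = 0 := by
  obtain ⟨k', rfl⟩ : ∃ k', k = k' + 1 := ⟨k - 1, by omega⟩
  rw [PowerSeries.coeff_map, coeff_tateX12_succ, tateCoeff_zero_left]
  simp

/-- **Distinctness of the series `1 + 12 X(q^a ; q^M)`** over `R`. -/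
theorem map_tateX12_eq_iff (h24 : (24 : R) ≠ 0) (a b : ZMod M) :
    (tateX12 M a).map (Int.castRingHom R) = (tateX12 M b).map (Int.castRingHom R) ↔
      a = b ∨ a = -b := by
  constructor
  · intro h
    have hc : ∀ k, PowerSeries.coeff k ((tateX12 M a).map (Int.castRingHom R)) =
        PowerSeries.coeff k ((tateX12 M b).map (Int.castRingHom R)) := fun k => by rw [h]
    by_cases ha : a = 0
    · by_cases hb : b = 0
      · exact Or.inl (ha.trans hb.symm)
      · exfalso
        have h1 := hc (absRep M b)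
        rw [ha, coeff_map_tateX12_zero_left R (absRep_pos hb)] at h1
        exact coeff_map_tateX12_absRep_ne_zero R h24 hb h1.symm
    · by_cases hb : b = 0
      · exfalso
        have h1 := hc (absRep M a)
        rw [hb, coeff_map_tateX12_zero_left R (absRep_pos ha)] at h1
        exact coeff_map_tateX12_absRep_ne_zero R h24 ha h1
      · apply eq_or_eq_neg_of_absRep_eq ha hb
        rcases lt_trichotomy (absRep M a) (absRep M b) with hlt | heq | hgt
        · exfalso
          have h1 := hc (absRep M a)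
          rw [coeff_map_tateX12_of_lt R hb (absRep_pos ha) hlt] at h1
          exact coeff_map_tateX12_absRep_ne_zero R h24 ha h1
        · exact heq
        · exfalso
          have h1 := hc (absRep M b)
          rw [coeff_map_tateX12_of_lt R ha (absRep_pos hb) hgt] at h1
          exact coeff_map_tateX12_absRep_ne_zero R h24 hb h1.symm
  · rintro (h | h)
    · rw [h]
    · rw [h, tateX12_neg]

/-- **Distinctness of the Weber conjugates** `12 w_M^{(a)}` over every commutative ring in
which `24 ≠ 0`. -/
theorem weber12C_eq_iff (h24 : (24 : R) ≠ 0) (a b : ZMod M) :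
    weber12C R M a = weber12C R M b ↔ a = b ∨ a = -b := by
  constructor
  · intro h
    rw [← map_tateX12_eq_iff R h24]
    rw [weber12C_eq_single_mul, weber12C_eq_single_mul] at h
    have h1 := congrArg (fun x => HahnSeries.single ((M : ℤ)) (1 : R) * x) h
    simp only [← mul_assoc, HahnSeries.single_mul_single, add_neg_cancel, mul_one] at h1
    have h2 : HahnSeries.ofPowerSeries ℤ R (weberPS R M a) =
        HahnSeries.ofPowerSeries ℤ R (weberPS R M b) := by
      have e : (HahnSeries.single (0 : ℤ) (1 : R)) = 1 := rfl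
      rw [e, one_mul, one_mul] at h1
      exact h1
    have h3 : weberPS R M a = weberPS R M b := HahnSeries.ofPowerSeries_injective h2
    unfold weberPS at h3
    have hu : IsUnit (PowerSeries.expand M (NeZero.ne M) (weberNum.map (Int.castRingHom R))) := by
      rw [PowerSeries.isUnit_iff_constantCoeff, PowerSeries.constantCoeff_expand,
        ← PowerSeries.coeff_zero_eq_constantCoeff, PowerSeries.coeff_map,
        PowerSeries.coeff_zero_eq_constantCoeff, constantCoeff_weberNum]
      simp
    exact hu.mul_left_cancel h3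
  · rintro (h | h)
    · rw [h]
    · rw [h, weber12C_neg]

theorem weber12C_ne_of_ne (h24 : (24 : R) ≠ 0) {a b : ZMod M} (h1 : a ≠ b) (h2 : a ≠ -b) :
    weber12C R M a ≠ weber12C R M b := fun h =>
  ((weber12C_eq_iff R h24 a b).mp h).elim h1 h2

end Ring

/-- distinctness of the rational Weber functions -/
theorem weberQ_eq_iff (a b : ZMod M) : weberQ M a = weberQ M b ↔ a = b ∨ a = -b := by
  rw [← weber12C_eq_iff ℚ (by norm_num) a b, weber12C_rat, weber12C_rat]
  constructor
  · intro h; rw [h]
  · intro h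
    have h12 : (HahnSeries.C (12 : ℚ) : LaurentSeries ℚ) ≠ 0 :=
      HahnSeries.C_ne_zero (by norm_num)
    exact mul_left_cancel₀ h12 h

/-- `24 ≠ 0` in characteristic `ℓ ≥ 5` -/
theorem twentyFour_ne_zero_of_charP (k : Type*) [CommRing k] (ℓ : ℕ) [CharP k ℓ] (hℓ : ℓ.Prime)
    (h5 : 5 ≤ ℓ) : (24 : k) ≠ 0 := by
  intro h
  have h1 : ((24 : ℕ) : k) = 0 := by exact_mod_cast h
  rw [CharP.cast_eq_zero_iff k ℓ] at h1
  have h24 : (24 : ℕ) = 2 ^ 3 * 3 := by norm_num
  rw [h24] at h1
  rcases (Nat.Prime.dvd_mul hℓ).mp h1 with h2 | h2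
  · have := (Nat.prime_dvd_prime_iff_eq hℓ Nat.prime_two).mp (hℓ.dvd_of_dvd_pow h2)
    omega
  · have := (Nat.prime_dvd_prime_iff_eq hℓ Nat.prime_three).mp h2
    omega

/-- the reductions of the Weber conjugates in characteristic `ℓ ≥ 5` stay pairwise distinct -/
theorem weber12C_eq_iff_of_charP (k : Type*) [CommRing k] (ℓ : ℕ) [CharP k ℓ] (hℓ : ℓ.Prime)
    (h5 : 5 ≤ ℓ) (a b : ZMod M) : weber12C k M a = weber12C k M b ↔ a = b ∨ a = -b :=
  weber12C_eq_iff k (twentyFour_ne_zero_of_charP k ℓ hℓ h5) a b

/-- over a ring of characteristic zero -/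
theorem weber12C_eq_iff_of_charZero (R : Type*) [CommRing R] [CharZero R] (a b : ZMod M) :
    weber12C R M a = weber12C R M b ↔ a = b ∨ a = -b :=
  weber12C_eq_iff R (by exact_mod_cast (by norm_num : ((24 : ℕ) : R) ≠ 0)) a b

end Fermat.Agent.DS.P0.WeberDistinct
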